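/-
Cluster A/B interface (helper42): reduction of `F3.TorsionUnramified N` and
`F3.TorsionFrobQuadratic N` to statements about FUNCTIONS of the modular function field
(`InertiaPow N`, `FrobPow N`), which is what the good-reduction side (KEY LEMMA + KRONECKER +
INERTIA of NOTES/blueprint-F3.md, section 3) produces.  Sorry-free.
-/
import Fermat.Agent.MUL.Orig.F3.Interfaces
import Fermat.Agent.MUL.Orig.F3.Galois.NormDesc

set_option autoImplicit false

noncomputable section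

namespace Fermat.Agent.F3G

open ModularCurve AlgebraicCurve Fermat.Agent.F3

section General

variable {K F : Type*} [Field K] [Field F] [Algebra K F]

/-- A degree-zero divisor `D` with `n • D = div (u ^ n)`, `n ≠ 0`, is principal. -/
theorem mk_eq_zero_of_mul_eq_ord_pow (n : ℕ) (hn : n ≠ 0)
    (D : Divisor.degZero (K := K) (F := F)) {u : F} (hu : u ≠ 0)
    (hD : ∀ v : Place K F, (n : ℤ) * (D : Divisor K F) v = v.ord (u ^ n)) :
    Pic0.mk D = 0 := by
  have hmem : D ∈ (Divisor.principal (K := K) (F := F)).addSubgroupOf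
      (Divisor.degZero (K := K) (F := F)) := by
    refine ⟨u, hu, fun v => ?_⟩
    have h := hD v
    rw [← zpow_natCast, Place.ord_zpow] at h
    exact mul_left_cancel₀ (Int.natCast_ne_zero.mpr hn) h
  exact (QuotientAddGroup.eq_zero_iff _).mpr hmem

/-- The divisor of `g • f` is `g • div f` (torsion form). -/
theorem mul_smul_divisor_apply_eq_ord (g : SemilinearAut K F) (n : ℤ) {D : Divisor K F} {f : F}
    (hD : ∀ v : Place K F, n * D v = v.ord f) (w : Place K F) :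
    n * (g • D) w = w.ord (g • f) := by
  rw [SemilinearAut.divisor_smul_apply, hD]
  have h := SemilinearAut.ord_smul g (g⁻¹ • w) f
  rw [smul_inv_smul] at h
  exact h.symm

/-- If `n D₁ = div a`, `n E = div b`, `n D = div c` and `uⁿ b = a c^ℓ` then
`[D₁] - [E] + ℓ [D] = 0`. -/
theorem mk_sub_add_nsmul_eq_zero_of_pow (n : ℕ) (hn : n ≠ 0) (ℓ : ℕ)
    (D₁ E D : Divisor.degZero (K := K) (F := F)) {a b c u : F}
    (ha : a ≠ 0) (hb : b ≠ 0) (hc : c ≠ 0)
    (h1 : ∀ v : Place K F, (n : ℤ) * (D₁ : Divisor K F) v = v.ord a)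
    (h2 : ∀ v : Place K F, (n : ℤ) * (E : Divisor K F) v = v.ord b)
    (h3 : ∀ v : Place K F, (n : ℤ) * (D : Divisor K F) v = v.ord c)
    (hrel : u ^ n * b = a * c ^ ℓ) :
    Pic0.mk D₁ - Pic0.mk E + ℓ • Pic0.mk D = 0 := by
  have hu0 : u ≠ 0 := by
    rintro rfl
    rw [zero_pow hn, zero_mul] at hrel
    exact mul_ne_zero ha (pow_ne_zero ℓ hc) hrel.symm
  have e4 : ℓ • Pic0.mk D = Pic0.mk (ℓ • D) :=
    (map_nsmul (QuotientAddGroup.mk' _) ℓ D).symm
  have e5 : Pic0.mk D₁ - Pic0.mk E + Pic0.mk (ℓ • D) = Pic0.mk (D₁ - E + ℓ • D) := rfl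
  rw [e4, e5]
  refine mk_eq_zero_of_mul_eq_ord_pow n hn (D₁ - E + ℓ • D) hu0 fun v => ?_
  have h4 : v.ord (u ^ n) + v.ord b = v.ord a + (ℓ : ℤ) * v.ord c := by
    rw [← v.ord_mul (pow_ne_zero n hu0) hb, hrel, v.ord_mul ha (pow_ne_zero ℓ hc),
      ← zpow_natCast c ℓ, Place.ord_zpow]
  have h5 : ((D₁ - E + ℓ • D : Divisor.degZero (K := K) (F := F)) : Divisor K F) v
      = (D₁ : Divisor K F) v - (E : Divisor K F) v + (ℓ : ℤ) * (D : Divisor K F) v := by
    rw [AddSubgroup.coe_add, AddSubgroup.coe_sub, AddSubgroup.coe_nsmul, Finsupp.add_apply,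
      Finsupp.sub_apply, Finsupp.smul_apply, nsmul_eq_mul]
  have h6 : (n : ℤ) * ((ℓ : ℤ) * (D : Divisor K F) v) = (ℓ : ℤ) * v.ord c := by
    rw [mul_left_comm, h3]
  rw [h5, mul_add, mul_sub, h1, h2, h6]
  linarith

end General

section Modular

/-- The modular function field of level `N` over `ℚ̄`. -/
abbrev FBar (N : ℕ) : Type := ↥(modularFunctionFieldBar N)

/-- The coefficientwise action of `σ ∈ G_ℚ` on the modular function field over `ℚ̄`. -/
abbrev galFun (N : ℕ) (σ : GQ) (f : FBar N) : FBar N :=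
  arithmeticGalois (modularFunctionFieldFull N) σ • f

/-- (function form of "unramified") for `ℓ ∤ N n`, `τ` in an inertia group over `ℓ` and a
function `f` whose divisor is `n` times a degree-zero divisor, `τ f / f` is an `n`-th power. -/
def InertiaPow (N : ℕ) [NeZero N] : Prop :=
  ∀ (n ℓ : ℕ), ℓ.Prime → ¬ ℓ ∣ N * n →
    ∀ A : ValuationSubring (AlgebraicClosure ℚ), A.LiesOverPrime ℓ →
      ∀ τ ∈ A.inertiaSubgroupIn ℚ, ∀ (f : FBar N), f ≠ 0 →
        ∀ D : Divisor.degZero (K := AlgebraicClosure ℚ) (F := FBar N),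
          (∀ v, (n : ℤ) * (D : Divisor (AlgebraicClosure ℚ) (FBar N)) v = v.ord f) →
            ∃ u : FBar N, u ^ n * f = galFun N τ f

/-- (function form of Eichler--Shimura) for `ℓ ∤ N n`, `σ` a Frobenius over `ℓ` and a function
`f` whose divisor is `n` times a degree-zero divisor, `σ f · (σ⁻¹ f)^ℓ / T_ℓ f` is an `n`-th
power, where `T_ℓ f = Norm_{F_{Nℓ}/F_N} (f(q^ℓ))`. -/
def FrobPow (N : ℕ) [NeZero N] : Prop :=
  ∀ (n ℓ : ℕ) (hℓ : ℓ.Prime), ¬ ℓ ∣ N * n →
    ∀ A : ValuationSubring (AlgebraicClosure ℚ), A.LiesOverPrime ℓ →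
      ∀ σ : GQ, A.IsFrobeniusAt σ ℓ → ∀ (f : FBar N), f ≠ 0 →
        ∀ D : Divisor.degZero (K := AlgebraicClosure ℚ) (F := FBar N),
          (∀ v, (n : ℤ) * (D : Divisor (AlgebraicClosure ℚ) (FBar N)) v = v.ord f) →
            ∃ u : FBar N,
              u ^ n * (haveI : NeZero ℓ := ⟨hℓ.ne_zero⟩; heckeFun (AlgebraicClosure ℚ) N ℓ f)
                = galFun N σ f * galFun N σ⁻¹ f ^ ℓ

variable {N : ℕ} [NeZero N]

theorem torsionUnramified_of_inertiaPow (h : InertiaPow N) : TorsionUnramified N := by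
  intro n ℓ hℓ hndvd A hA τ hτ x hx
  have hn : n ≠ 0 := by
    rintro rfl
    exact hndvd (by simp)
  have hx' : (n : ℤ) • x = 0 := by rwa [natCast_zsmul]
  obtain ⟨D, f, hf, rfl, hD⟩ := exists_div_of_zsmul_eq_zero (n : ℤ) x hx'
  obtain ⟨u, hu⟩ := h n ℓ hℓ hndvd A hA τ hτ f hf D hD
  have hτf : galFun N τ f ≠ 0 := by
    show arithmeticGalois (modularFunctionFieldFull N) τ • f ≠ 0
    simpa using hf
  have hu0 : u ≠ 0 := by
    rintro rfl
    rw [zero_pow hn, zero_mul] at hu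
    exact hτf hu.symm
  rw [← sub_eq_zero]
  show arithmeticGalois (modularFunctionFieldFull N) τ • Pic0.mk D - Pic0.mk D = 0
  rw [SemilinearAut.pic0_smul_mk]
  refine mk_eq_zero_of_mul_eq_ord_pow n hn
    (SemilinearAut.degZeroSMulHom (arithmeticGalois (modularFunctionFieldFull N) τ) D - D)
    hu0 fun v => ?_
  have h1 := mul_smul_divisor_apply_eq_ord (arithmeticGalois (modularFunctionFieldFull N) τ)
    (n : ℤ) hD v
  have h2 := hD v
  have h3 : v.ord (galFun N τ f) = v.ord (u ^ n) + v.ord f := by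
    rw [← hu, v.ord_mul (pow_ne_zero n hu0) hf]
  rw [AddSubgroup.coe_sub, Finsupp.sub_apply, mul_sub, SemilinearAut.coe_degZeroSMulHom, h1, h2]
  change v.ord (galFun N τ f) - v.ord f = _
  rw [h3]
  ring

theorem torsionFrobQuadratic_of_frobPow
    (hin : ∀ ℓ : Nat.Primes,
      (haveI : NeZero (ℓ : ℕ) := ⟨ℓ.2.ne_zero⟩; HeckeInputsAlong (AlgebraicClosure ℚ) N ℓ))
    (h : FrobPow N) : TorsionFrobQuadratic N := by
  intro n ℓ hℓ hndvd A hA σ hσ x hx
  haveI : NeZero ℓ := ⟨hℓ.ne_zero⟩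
  have hn : n ≠ 0 := by
    rintro rfl
    exact hndvd (by simp)
  have hx' : (n : ℤ) • x = 0 := by rwa [natCast_zsmul]
  obtain ⟨D, f, hf, rfl, hD⟩ := exists_div_of_zsmul_eq_zero (n : ℤ) x hx'
  set g := arithmeticGalois (modularFunctionFieldFull N) σ with hg
  -- the translated data
  set D' := SemilinearAut.degZeroSMulHom g D with hD'def
  have hf' : g • f ≠ 0 := by simpa using hf
  have hD' : ∀ v, (n : ℤ) * (D' : Divisor (AlgebraicClosure ℚ) (FBar N)) v = v.ord (g • f) :=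
    fun v => mul_smul_divisor_apply_eq_ord g (n : ℤ) hD v
  obtain ⟨u, hu⟩ := h n ℓ hℓ hndvd A hA σ hσ (g • f) hf' D' hD'
  have hinv : galFun N σ⁻¹ (g • f) = f := by
    show arithmeticGalois (modularFunctionFieldFull N) σ⁻¹ • (g • f) = f
    rw [map_inv, inv_smul_smul]
  rw [hinv] at hu
  have hT0 : heckeFun (AlgebraicClosure ℚ) N ℓ (g • f) ≠ 0 :=
    heckeFun_ne_zero (hin ⟨ℓ, hℓ⟩) hf'
  have hgg : galFun N σ (g • f) ≠ 0 := by
    show g • (g • f) ≠ 0
    simpa using hf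
  obtain ⟨E, hE, hEord⟩ :=
    heckeOperatorAlong_mk_of_zsmul_eq_div (ℓ := ℓ) (hin ⟨ℓ, hℓ⟩) D' (n : ℤ) hf' hD'
  have e1 : σ • Pic0.mk D = Pic0.mk D' := SemilinearAut.pic0_smul_mk g D
  have e2 : σ • Pic0.mk D' = Pic0.mk (SemilinearAut.degZeroSMulHom g D') :=
    SemilinearAut.pic0_smul_mk g D'
  have e3 : heckeOperatorBar N (⟨ℓ, hℓ⟩ : Nat.Primes) (Pic0.mk D') = Pic0.mk E :=
    (heckeOperatorBar_apply N (⟨ℓ, hℓ⟩ : Nat.Primes) (Pic0.mk D')).trans hE
  rw [e1, e2, e3]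
  exact mk_sub_add_nsmul_eq_zero_of_pow n hn ℓ (SemilinearAut.degZeroSMulHom g D') E D
    hgg hT0 hf (fun v => mul_smul_divisor_apply_eq_ord g (n : ℤ) hD' v) hEord hD hu

end Modular

end Fermat.Agent.F3G
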